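import Mathlib
import Fermat.Agent.TW.FLAT.Points6

/-
Programme FF (S19), chapter HOPF, file FunHopf6 (helper6): **a Hopf algebra structure from a
family of points**.

`R` a commutative ring, `H` a commutative `R`-algebra, `Ω` a commutative `R`-algebra, `M` an additive
commutative group and `ev : M → (H →ₐ[R] Ω)` a family of points of `H` indexed by `M`.

* `ev₂ ev x y : H ⊗[R] H →ₐ[R] Ω`, `ev₂ ev x y (a ⊗ₜ b) = ev x a * ev y b`;
  `ev₃ ev x y z : H ⊗[R] (H ⊗[R] H) →ₐ[R] Ω`.
* `structure FunHopfData ev : Prop` : `algebraMap R Ω` injective, the three realisations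
  `H^{⊗n} → (Mⁿ → Ω)` (`n = 1, 2, 3`) injective, and the functions
  `(x, y) ↦ ev (x + y) h`, `ev 0 h`, `x ↦ ev (-x) h` are realised by a tensor, a scalar, an element.
* for `D : FunHopfData ev`: `D.comulF : H →ₐ[R] H ⊗[R] H` (`ev₂_comulF`), `D.counitF : H →ₐ[R] R`
  (`algebraMap_counitF`), `D.antipodeF : H →ₗ[R] H` (`ev_antipodeF`);
  `D.bialgebra`, `D.hopfAlgebra : HopfAlgebra R H` (reducible defs; use with `letI`), `D.isCocomm`;
  `D.toConv_ev_add : toConv (ev (x + y)) = toConv (ev x) * toConv (ev y)` (convolution product of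
  points), `D.toConv_ev_zero`.
-/

set_option autoImplicit false
set_option linter.style.haveILetI false
set_option linter.unusedSectionVars false

namespace Fermat.Agent.FF.HOPF.FunHopf6

open TensorProduct WithConv

noncomputable section

variable {R : Type*} [CommRing R] {H : Type*} [CommRing H] [Algebra R H]
  {Ω : Type*} [CommRing Ω] [Algebra R Ω] {M : Type*} [AddCommGroup M]

/-- Evaluation of a tensor in `H ⊗ H` at a pair of points. -/
def ev₂ (ev : M → (H →ₐ[R] Ω)) (x y : M) : H ⊗[R] H →ₐ[R] Ω :=
  Algebra.TensorProduct.lift (ev x) (ev y) (fun _ _ => Commute.all _ _)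

@[simp] lemma ev₂_tmul (ev : M → (H →ₐ[R] Ω)) (x y : M) (a b : H) :
    ev₂ ev x y (a ⊗ₜ[R] b) = ev x a * ev y b := by
  simp [ev₂]

/-- Evaluation of a tensor in `H ⊗ (H ⊗ H)` at a triple of points. -/
def ev₃ (ev : M → (H →ₐ[R] Ω)) (x y z : M) : H ⊗[R] (H ⊗[R] H) →ₐ[R] Ω :=
  Algebra.TensorProduct.lift (ev x) (ev₂ ev y z) (fun _ _ => Commute.all _ _)

@[simp] lemma ev₃_tmul (ev : M → (H →ₐ[R] Ω)) (x y z : M) (a : H) (t : H ⊗[R] H) :
    ev₃ ev x y z (a ⊗ₜ[R] t) = ev x a * ev₂ ev y z t := by
  simp [ev₃]

/-- The data making `H` a Hopf algebra whose points contain `M`. -/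
structure FunHopfData (ev : M → (H →ₐ[R] Ω)) : Prop where
  algInj : Function.Injective (algebraMap R Ω)
  inj1 : ∀ h : H, (∀ x, ev x h = 0) → h = 0
  inj2 : ∀ t : H ⊗[R] H, (∀ x y, ev₂ ev x y t = 0) → t = 0
  inj3 : ∀ t : H ⊗[R] (H ⊗[R] H), (∀ x y z, ev₃ ev x y z t = 0) → t = 0
  comul_mem : ∀ h : H, ∃ t : H ⊗[R] H, ∀ x y, ev₂ ev x y t = ev (x + y) h
  counit_mem : ∀ h : H, ∃ r : R, ev 0 h = algebraMap R Ω r
  antipode_mem : ∀ h : H, ∃ h' : H, ∀ x, ev x h' = ev (-x) h

namespace FunHopfData

variable {ev : M → (H →ₐ[R] Ω)} (D : FunHopfData ev)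

include D in
lemma ext1 {h h' : H} (hh : ∀ x, ev x h = ev x h') : h = h' := by
  rw [← sub_eq_zero]
  apply D.inj1
  intro x
  rw [map_sub, hh x, sub_self]

include D in
lemma ext2 {t t' : H ⊗[R] H} (hh : ∀ x y, ev₂ ev x y t = ev₂ ev x y t') : t = t' := by
  rw [← sub_eq_zero]
  apply D.inj2
  intro x y
  rw [map_sub, hh x y, sub_self]

include D in
lemma ext3 {t t' : H ⊗[R] (H ⊗[R] H)} (hh : ∀ x y z, ev₃ ev x y z t = ev₃ ev x y z t') :
    t = t' := by
  rw [← sub_eq_zero]
  apply D.inj3
  intro x y z
  rw [map_sub, hh x y z, sub_self]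

/-- The comultiplication, as a function. -/
def comulFun (h : H) : H ⊗[R] H := Classical.choose (D.comul_mem h)

lemma ev₂_comulFun (h : H) (x y : M) : ev₂ ev x y (D.comulFun h) = ev (x + y) h :=
  Classical.choose_spec (D.comul_mem h) x y

/-- The comultiplication. -/
def comulF : H →ₐ[R] H ⊗[R] H :=
  AlgHom.ofLinearMap
    { toFun := D.comulFun
      map_add' := fun a b => D.ext2 fun x y => by
        rw [map_add, D.ev₂_comulFun, D.ev₂_comulFun, D.ev₂_comulFun, map_add]
      map_smul' := fun r a => D.ext2 fun x y => by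
        rw [RingHom.id_apply, map_smul, D.ev₂_comulFun, D.ev₂_comulFun, map_smul] }
    (D.ext2 fun x y => by
      change ev₂ ev x y (D.comulFun 1) = _
      rw [D.ev₂_comulFun, map_one, map_one])
    (fun a b => D.ext2 fun x y => by
      change ev₂ ev x y (D.comulFun (a * b)) = ev₂ ev x y (D.comulFun a * D.comulFun b)
      rw [map_mul, D.ev₂_comulFun, D.ev₂_comulFun, D.ev₂_comulFun, map_mul])

@[simp] lemma ev₂_comulF (h : H) (x y : M) : ev₂ ev x y (D.comulF h) = ev (x + y) h :=
  D.ev₂_comulFun h x y

/-- The counit, as a function. -/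
def counitFun (h : H) : R := Classical.choose (D.counit_mem h)

lemma algebraMap_counitFun (h : H) : algebraMap R Ω (D.counitFun h) = ev 0 h :=
  (Classical.choose_spec (D.counit_mem h)).symm

/-- The counit. -/
def counitF : H →ₐ[R] R :=
  AlgHom.ofLinearMap
    { toFun := D.counitFun
      map_add' := fun a b => D.algInj (by
        rw [map_add, D.algebraMap_counitFun, D.algebraMap_counitFun, D.algebraMap_counitFun,
          map_add])
      map_smul' := fun r a => D.algInj (by
        rw [RingHom.id_apply, smul_eq_mul, map_mul, D.algebraMap_counitFun,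
          D.algebraMap_counitFun, map_smul, Algebra.smul_def]) }
    (D.algInj (by
      change algebraMap R Ω (D.counitFun 1) = _
      rw [D.algebraMap_counitFun, map_one, map_one]))
    (fun a b => D.algInj (by
      change algebraMap R Ω (D.counitFun (a * b)) =
        algebraMap R Ω (D.counitFun a * D.counitFun b)
      rw [map_mul, D.algebraMap_counitFun, D.algebraMap_counitFun, D.algebraMap_counitFun,
        map_mul]))

@[simp] lemma algebraMap_counitF (h : H) : algebraMap R Ω (D.counitF h) = ev 0 h :=
  D.algebraMap_counitFun h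

/-- The antipode, as a function. -/
def antipodeFun (h : H) : H := Classical.choose (D.antipode_mem h)

lemma ev_antipodeFun (h : H) (x : M) : ev x (D.antipodeFun h) = ev (-x) h :=
  Classical.choose_spec (D.antipode_mem h) x

/-- The antipode. -/
def antipodeF : H →ₗ[R] H where
  toFun := D.antipodeFun
  map_add' := fun a b => D.ext1 fun x => by
    rw [map_add, D.ev_antipodeFun, D.ev_antipodeFun, D.ev_antipodeFun, map_add]
  map_smul' := fun r a => D.ext1 fun x => by
    rw [RingHom.id_apply, map_smul, D.ev_antipodeFun, D.ev_antipodeFun, map_smul]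

@[simp] lemma ev_antipodeF (h : H) (x : M) : ev x (D.antipodeF h) = ev (-x) h :=
  D.ev_antipodeFun h x

/-! ### pointwise formulas -/

lemma q1 (t : H ⊗[R] H) (x y z : M) :
    ev₃ ev x y z (Algebra.TensorProduct.map (AlgHom.id R H) D.comulF t) =
      ev₂ ev x (y + z) t := by
  induction t using TensorProduct.induction_on with
  | zero => simp
  | tmul a b => simp
  | add u v hu hv => simp only [map_add, hu, hv]

lemma q2 (s : H ⊗[R] H) (b : H) (x y z : M) :
    ev₃ ev x y z (Algebra.TensorProduct.assoc R R R H H H (s ⊗ₜ[R] b)) =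
      ev₂ ev x y s * ev z b := by
  induction s using TensorProduct.induction_on with
  | zero => simp
  | tmul a a' => simp [mul_assoc]
  | add u v hu hv => simp only [TensorProduct.add_tmul, map_add, hu, hv, add_mul]

lemma q3 (t : H ⊗[R] H) (x y z : M) :
    ev₃ ev x y z (Algebra.TensorProduct.assoc R R R H H H
      (Algebra.TensorProduct.map D.comulF (AlgHom.id R H) t)) =
      ev₂ ev (x + y) z t := by
  induction t using TensorProduct.induction_on with
  | zero => simp
  | tmul a b => simp [q2]
  | add u v hu hv => simp only [map_add, hu, hv]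

lemma coassocF :
    (Algebra.TensorProduct.assoc R R R H H H).toAlgHom.comp
      ((Algebra.TensorProduct.map D.comulF (.id R H)).comp D.comulF) =
    (Algebra.TensorProduct.map (.id R H) D.comulF).comp D.comulF := by
  apply AlgHom.ext
  intro h
  apply D.ext3
  intro x y z
  simp only [AlgHom.comp_apply]
  change ev₃ ev x y z (Algebra.TensorProduct.assoc R R R H H H
    (Algebra.TensorProduct.map D.comulF (AlgHom.id R H) (D.comulF h))) = _
  rw [D.q3, D.q1, D.ev₂_comulF, D.ev₂_comulF, add_assoc]

lemma q4 (t : H ⊗[R] H) (x : M) :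
    ev x (Algebra.TensorProduct.lid R H
      (Algebra.TensorProduct.map D.counitF (AlgHom.id R H) t)) = ev₂ ev 0 x t := by
  induction t using TensorProduct.induction_on with
  | zero => simp
  | tmul a b => simp [Algebra.smul_def]
  | add u v hu hv => simp only [map_add, hu, hv]

lemma q4' (t : H ⊗[R] H) (x : M) :
    ev x (Algebra.TensorProduct.rid R R H
      (Algebra.TensorProduct.map (AlgHom.id R H) D.counitF t)) = ev₂ ev x 0 t := by
  induction t using TensorProduct.induction_on with
  | zero => simp
  | tmul a b => simp [Algebra.smul_def, mul_comm]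
  | add u v hu hv => simp only [map_add, hu, hv]

lemma rTensorF :
    (Algebra.TensorProduct.map D.counitF (.id R H)).comp D.comulF =
      (Algebra.TensorProduct.lid R H).symm := by
  apply AlgHom.ext
  intro h
  apply (Algebra.TensorProduct.lid R H).injective
  apply D.ext1
  intro x
  simp only [AlgHom.comp_apply]
  rw [D.q4, D.ev₂_comulF, zero_add]
  simp

lemma lTensorF :
    (Algebra.TensorProduct.map (.id R H) D.counitF).comp D.comulF =
      (Algebra.TensorProduct.rid R R H).symm := by
  apply AlgHom.ext
  intro h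
  apply (Algebra.TensorProduct.rid R R H).injective
  apply D.ext1
  intro x
  simp only [AlgHom.comp_apply]
  rw [D.q4', D.ev₂_comulF, add_zero]
  simp

/-- The bialgebra structure on `H`. -/
@[reducible] def bialgebra : Bialgebra R H :=
  Bialgebra.ofAlgHom D.comulF D.counitF D.coassocF D.rTensorF D.lTensorF

lemma q5 (t : H ⊗[R] H) (x : M) :
    ev x (LinearMap.mul' R H (LinearMap.rTensor H D.antipodeF t)) = ev₂ ev (-x) x t := by
  induction t using TensorProduct.induction_on with
  | zero => simp
  | tmul a b => simp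
  | add u v hu hv => simp only [map_add, hu, hv]

lemma q5' (t : H ⊗[R] H) (x : M) :
    ev x (LinearMap.mul' R H (LinearMap.lTensor H D.antipodeF t)) = ev₂ ev x (-x) t := by
  induction t using TensorProduct.induction_on with
  | zero => simp
  | tmul a b => simp
  | add u v hu hv => simp only [map_add, hu, hv]

/-- **The Hopf algebra structure on `H`.** -/
@[reducible] def hopfAlgebra : HopfAlgebra R H :=
  letI := D.bialgebra
  { antipode := D.antipodeF
    mul_antipode_rTensor_comul := by
      apply LinearMap.ext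
      intro h
      apply D.ext1
      intro x
      change ev x (LinearMap.mul' R H (LinearMap.rTensor H D.antipodeF (D.comulF h))) =
        ev x (algebraMap R H (D.counitF h))
      rw [D.q5, D.ev₂_comulF, neg_add_cancel, AlgHom.commutes, D.algebraMap_counitF]
    mul_antipode_lTensor_comul := by
      apply LinearMap.ext
      intro h
      apply D.ext1
      intro x
      change ev x (LinearMap.mul' R H (LinearMap.lTensor H D.antipodeF (D.comulF h))) =
        ev x (algebraMap R H (D.counitF h))
      rw [D.q5', D.ev₂_comulF, add_neg_cancel, AlgHom.commutes, D.algebraMap_counitF] }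

lemma comul_eq (h : H) :
    letI := D.hopfAlgebra; Coalgebra.comul (R := R) h = D.comulF h := rfl

lemma counit_eq (h : H) :
    letI := D.hopfAlgebra; Coalgebra.counit (R := R) h = D.counitF h := rfl

lemma antipode_eq (h : H) :
    letI := D.hopfAlgebra; HopfAlgebra.antipode R h = D.antipodeF h := rfl

lemma q6 (t : H ⊗[R] H) (x y : M) :
    ev₂ ev x y (TensorProduct.comm R H H t) = ev₂ ev y x t := by
  induction t using TensorProduct.induction_on with
  | zero => simp
  | tmul a b => simp [mul_comm]
  | add u v hu hv => simp only [map_add, hu, hv]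

/-- The structure is cocommutative. -/
lemma isCocomm : letI := D.hopfAlgebra; Coalgebra.IsCocomm R H := by
  letI := D.hopfAlgebra
  refine ⟨?_⟩
  apply LinearMap.ext
  intro h
  apply D.ext2
  intro x y
  change ev₂ ev x y (TensorProduct.comm R H H (D.comulF h)) = ev₂ ev x y (D.comulF h)
  rw [q6, D.ev₂_comulF, D.ev₂_comulF, add_comm]

/-- Convolution of points is addition in `M`. -/
lemma toConv_ev_add (x y : M) :
    letI := D.hopfAlgebra
    (toConv (ev (x + y)) : WithConv (H →ₐ[R] Ω)) = toConv (ev x) * toConv (ev y) := by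
  letI := D.hopfAlgebra
  apply WithConv.ext
  apply AlgHom.ext
  intro h
  rw [AlgHom.convMul_apply]
  exact (D.ev₂_comulF h x y).symm

lemma toConv_ev_zero :
    letI := D.hopfAlgebra
    (toConv (ev 0) : WithConv (H →ₐ[R] Ω)) = 1 := by
  letI := D.hopfAlgebra
  apply WithConv.ext
  apply AlgHom.ext
  intro h
  rw [AlgHom.convOne_def]
  change ev 0 h = algebraMap R Ω (D.counitF h)
  rw [D.algebraMap_counitF]

end FunHopfData

end

end Fermat.Agent.FF.HOPF.FunHopf6
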