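import Mathlib
import Fermat.Agent.TW.FLAT.Points6
import Fermat.Agent.TW.FLAT.Descent6
import Fermat.Agent.TW.FLAT.Closure6
import Fermat.Agent.FF.HOPF.FunHopf6

/-
Programme FF (S19), chapter HOPF, file Order6 (helper6): **Hopf orders inside function algebras**.

Setting: `W` a PID, `Ω` a field with `[Algebra W Ω] [FaithfulSMul W Ω]`, `Γ` a group acting on `Ω` by
ring automorphisms commuting with `W`, with `hF : Descent6.FixedInFrac W Ω Γ` (`Ω^Γ ⊆ Frac W`);
`M` a finite additive commutative group with an action `act : Γ → M → M`.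

* `evS H x : H →ₐ[W] Ω` : evaluation at `x : M` on a subalgebra `H : Subalgebra W (M → Ω)`.
* `structure IsPreOrder act H : Prop` : `H` is module-finite over `W` (`fg`), consists of
  `Γ`-equivariant functions (`equiv : h (act σ x) = σ • h x`), separates the points of `M` (`sep`).
  Consequences: `free`, `stableFam`, `evFam_injective hF`, `linearIndependent_basis hF b`
  (realisations of a `W`-basis are `Ω`-linearly independent), `real₂ H`, `real₃ H`
  (realisations of `H ⊗ H`, `H ⊗ (H ⊗ H)` as functions on `M × M`, `M × (M × M)`),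
  `linearIndependent_real₂`, `linearIndependent_real₃`, `inj2`, `inj3`.
* `structure IsHopfOrder act H : Prop extends IsPreOrder act H` : moreover stable under the
  comultiplication: for `h ∈ H` the function `(x, y) ↦ h (x + y)` is realised by a tensor in `H ⊗ H`
  (`comul : ∀ h ∈ H, ∃ t : H ⊗[W] H, ∀ x y, ev₂ (evS H) x y t = h (x + y)`).
  Consequences: `apply_zero_mem_range` (`h 0 ∈ W`), `nsmul_mem`, `neg_mem'` (antipode),
  `funHopfData hF hact0 : FunHopfData (evS H)`, `finrank_le`.
* **`IsHopfOrder.hasFlatModel hH hF hact0`** : then `Points6.HasFlatModel W Ω Γ M act`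
  (`hact0 : ∀ σ, act σ 0 = 0`).
* general lemmas: `linearIndependent_mul` (products of independent families of functions),
  `eq_zero_of_linearIndependent_fun`, `mem_range_of_fixed_of_isIntegral`.
-/

set_option autoImplicit false
set_option linter.style.haveILetI false
set_option linter.unusedSectionVars false

namespace Fermat.Agent.FF.HOPF.Order6

open TensorProduct WithConv
open Fermat.Agent.TW.FLAT.Points6 Fermat.Agent.TW.FLAT.Descent6 Fermat.Agent.TW.FLAT.Closure6
open Fermat.Agent.FF.HOPF.FunHopf6

noncomputable section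

/-! ### General linear algebra -/

section LinAlg

variable {Ω : Type*} [Field Ω]

/-- Products of two linearly independent families of functions are linearly independent as
functions on the product. -/
lemma linearIndependent_mul {ι κ X Y : Type*} [Fintype ι] [Fintype κ]
    (f : ι → X → Ω) (g : κ → Y → Ω)
    (hf : LinearIndependent Ω f) (hg : LinearIndependent Ω g) :
    LinearIndependent Ω (fun (p : ι × κ) (q : X × Y) => f p.1 q.1 * g p.2 q.2) := by
  rw [Fintype.linearIndependent_iff] at hf hg ⊢
  intro c hc
  have h1 : ∀ (y : Y) (i : ι), ∑ k, c (i, k) * g k y = 0 := by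
    intro y
    apply hf
    funext x
    have := congrFun hc (x, y)
    simp only [Finset.sum_apply, Pi.smul_apply, smul_eq_mul, Pi.zero_apply,
      Fintype.sum_prod_type] at this ⊢
    rw [← this]
    apply Finset.sum_congr rfl
    intro i _
    rw [Finset.sum_mul]
    apply Finset.sum_congr rfl
    intro k _
    ring
  rintro ⟨i, k⟩
  have h2 : ∑ k, c (i, k) • g k = 0 := by
    funext y
    simpa using h1 y i
  exact hg (fun k => c (i, k)) h2 k

variable {W : Type*} [CommRing W] [Algebra W Ω] [FaithfulSMul W Ω]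

/-- A `W`-linear map from a free module to a space of `Ω`-valued functions sending a basis to an
`Ω`-linearly independent family has trivial kernel. -/
lemma eq_zero_of_linearIndependent_fun {ι A X : Type*} [Fintype ι] [AddCommMonoid A] [Module W A]
    (b : Module.Basis ι W A) (φ : A →ₗ[W] (X → Ω))
    (hφ : LinearIndependent Ω (fun i => φ (b i))) (a : A) (ha : φ a = 0) : a = 0 := by
  rw [Fintype.linearIndependent_iff] at hφ
  have h1 : ∑ i, (algebraMap W Ω (b.repr a i)) • φ (b i) = 0 := by
    rw [← ha]
    conv_rhs => rw [← b.sum_repr a]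
    rw [map_sum]
    apply Finset.sum_congr rfl
    intro i _
    rw [map_smul]
    funext x
    simp [Algebra.smul_def]
  have h2 := hφ _ h1
  apply b.repr.injective
  ext i
  have h3 := h2 i
  rw [map_zero, Finsupp.zero_apply]
  exact (FaithfulSMul.algebraMap_injective W Ω) (by rw [h3, map_zero])

end LinAlg

variable {W : Type} [CommRing W] [IsDomain W] [IsPrincipalIdealRing W]
  {Ω : Type} [Field Ω] [Algebra W Ω] [FaithfulSMul W Ω]
  {Γ : Type} [Group Γ] [MulSemiringAction Γ Ω] [SMulCommClass Γ W Ω]
  {M : Type} [AddCommGroup M] [Finite M]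

/-- Evaluation at `x : M` on a subalgebra of the function algebra. -/
def evS (H : Subalgebra W (M → Ω)) (x : M) : H →ₐ[W] Ω :=
  (Pi.evalAlgHom W (fun _ : M => Ω) x).comp H.val

@[simp] lemma evS_apply (H : Subalgebra W (M → Ω)) (x : M) (h : H) : evS H x h = h.1 x := rfl

/-- `H ⊆ (M → Ω)` is an order of `Γ`-equivariant functions separating the points of `M`. -/
structure IsPreOrder (act : Γ → M → M) (H : Subalgebra W (M → Ω)) : Prop where
  fg : Module.Finite W H
  equiv : ∀ h ∈ H, ∀ (σ : Γ) (x : M), h (act σ x) = σ • h x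
  sep : ∀ x y : M, (∀ h ∈ H, h x = h y) → x = y

/-- `H ⊆ (M → Ω)` is a Hopf order for the `Γ`-module `M`. -/
structure IsHopfOrder (act : Γ → M → M) (H : Subalgebra W (M → Ω)) : Prop
    extends IsPreOrder act H where
  comul : ∀ h ∈ H, ∃ t : H ⊗[W] H, ∀ x y, ev₂ (evS H) x y t = h (x + y)

namespace IsPreOrder

variable {act : Γ → M → M} {H : Subalgebra W (M → Ω)}

instance torsionFree_sub : Module.IsTorsionFree W H := by
  apply Module.IsTorsionFree.of_smul_eq_zero
  intro r a hra
  by_cases hr : r = 0
  · exact Or.inl hr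
  · right
    apply Subtype.ext
    funext x
    have h1 : (r • a).1 x = 0 := by rw [hra]; rfl
    have h2 : algebraMap W Ω r * a.1 x = 0 := by
      rw [← Algebra.smul_def]
      exact h1
    rcases mul_eq_zero.1 h2 with h3 | h3
    · exact absurd ((FaithfulSMul.algebraMap_injective W Ω) (by rw [h3, map_zero])) hr
    · exact h3

variable (hH : IsPreOrder act H)

include hH in
lemma free : Module.Free W H := by
  haveI := hH.fg
  infer_instance

include hH in
lemma stableFam : StableFam Γ (evS H) := by
  intro σ x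
  refine ⟨act σ x, ?_⟩
  apply AlgHom.ext
  intro h
  change h.1 (act σ x) = σ • h.1 x
  exact hH.equiv h.1 h.2 σ x

include hH in
lemma evS_injective : Function.Injective (evS H) := by
  intro x y hxy
  apply hH.sep
  intro h hh
  exact congrArg (fun f : H →ₐ[W] Ω => f ⟨h, hh⟩) hxy

lemma vanishingIdeal_evS : vanishingIdeal (evS H) = ⊥ := by
  rw [eq_bot_iff]
  intro a ha
  rw [mem_vanishingIdeal] at ha
  rw [Ideal.mem_bot]
  apply Subtype.ext
  funext x
  exact ha x

include hH in
lemma evFam_injective (hF : FixedInFrac W Ω Γ) : Function.Injective (evFam (evS H)) := by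
  haveI := hH.free
  have h1 := ker_evFam_eq_span hF hH.stableFam
  rw [vanishingIdeal_evS] at h1
  have h2 : LinearMap.ker (evFam (evS H)).toLinearMap = ⊥ := by
    rw [h1, Submodule.span_eq_bot]
    rintro w ⟨a, ha, rfl⟩
    rw [Ideal.mem_bot] at ha
    rw [ha, TensorProduct.tmul_zero]
  exact LinearMap.ker_eq_bot.1 h2

include hH in
/-- The realisations of a `W`-basis of `H` are `Ω`-linearly independent functions. -/
lemma linearIndependent_basis (hF : FixedInFrac W Ω Γ) {ι : Type*} [Fintype ι]
    (b : Module.Basis ι W H) : LinearIndependent Ω (fun i => ((b i : H) : M → Ω)) := by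
  classical
  rw [Fintype.linearIndependent_iff]
  intro c hc
  have h1 := (Algebra.TensorProduct.basis Ω b).linearIndependent
  rw [Fintype.linearIndependent_iff] at h1
  apply h1 c
  apply hH.evFam_injective hF
  rw [map_zero, map_sum]
  funext x
  have := congrFun hc x
  simp only [Finset.sum_apply, Pi.smul_apply, smul_eq_mul, Pi.zero_apply] at this ⊢
  rw [← this]
  apply Finset.sum_congr rfl
  intro i _
  rw [Algebra.TensorProduct.basis_apply, map_smul, Pi.smul_apply, evFam_tmul, one_mul,
    smul_eq_mul]
  rfl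

/-- realisation of `H ⊗ H` as functions on `M × M`. -/
def real₂ (H : Subalgebra W (M → Ω)) : H ⊗[W] H →ₗ[W] (M × M → Ω) :=
  LinearMap.pi (fun p => (ev₂ (evS H) p.1 p.2).toLinearMap)

@[simp] lemma real₂_apply (t : H ⊗[W] H) (p : M × M) :
    real₂ H t p = ev₂ (evS H) p.1 p.2 t := rfl

/-- realisation of `H ⊗ (H ⊗ H)` as functions on `M × (M × M)`. -/
def real₃ (H : Subalgebra W (M → Ω)) : H ⊗[W] (H ⊗[W] H) →ₗ[W] (M × (M × M) → Ω) :=
  LinearMap.pi (fun p => (ev₃ (evS H) p.1 p.2.1 p.2.2).toLinearMap)

@[simp] lemma real₃_apply (t : H ⊗[W] (H ⊗[W] H)) (p : M × (M × M)) :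
    real₃ H t p = ev₃ (evS H) p.1 p.2.1 p.2.2 t := rfl

include hH in
lemma linearIndependent_real₂ (hF : FixedInFrac W Ω Γ) {ι : Type*} [Fintype ι]
    (b : Module.Basis ι W H) :
    LinearIndependent Ω (fun p : ι × ι => real₂ H ((b.tensorProduct b) p)) := by
  have h0 := linearIndependent_mul _ _ (hH.linearIndependent_basis hF b)
    (hH.linearIndependent_basis hF b)
  have heq : (fun p : ι × ι => real₂ H ((b.tensorProduct b) p)) =
      (fun (p : ι × ι) (q : M × M) => ((b p.1 : H) : M → Ω) q.1 * ((b p.2 : H) : M → Ω) q.2) := by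
    funext p q
    rw [real₂_apply, Module.Basis.tensorProduct_apply', ev₂_tmul, evS_apply, evS_apply]
  rw [heq]
  exact h0

include hH in
lemma inj2 (hF : FixedInFrac W Ω Γ) (t : H ⊗[W] H)
    (ht : ∀ x y, ev₂ (evS H) x y t = 0) : t = 0 := by
  haveI := hH.free
  haveI := hH.fg
  classical
  have h := hH.linearIndependent_real₂ hF (Module.Free.chooseBasis W H)
  refine eq_zero_of_linearIndependent_fun _ (real₂ H) h t ?_
  funext p
  exact ht p.1 p.2

include hH in
lemma linearIndependent_real₃ (hF : FixedInFrac W Ω Γ) {ι : Type*} [Fintype ι]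
    (b : Module.Basis ι W H) :
    LinearIndependent Ω
      (fun p : ι × (ι × ι) => real₃ H ((b.tensorProduct (b.tensorProduct b)) p)) := by
  have h0 := linearIndependent_mul _ _ (hH.linearIndependent_basis hF b)
    (hH.linearIndependent_real₂ hF b)
  have heq : (fun p : ι × (ι × ι) => real₃ H ((b.tensorProduct (b.tensorProduct b)) p)) =
      (fun (p : ι × (ι × ι)) (q : M × (M × M)) =>
        ((b p.1 : H) : M → Ω) q.1 * real₂ H ((b.tensorProduct b) p.2) q.2) := by
    funext p q
    rw [real₃_apply, Module.Basis.tensorProduct_apply', ev₃_tmul, evS_apply, real₂_apply]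
  rw [heq]
  exact h0

include hH in
lemma inj3 (hF : FixedInFrac W Ω Γ) (t : H ⊗[W] (H ⊗[W] H))
    (ht : ∀ x y z, ev₃ (evS H) x y z t = 0) : t = 0 := by
  haveI := hH.free
  haveI := hH.fg
  classical
  have h := hH.linearIndependent_real₃ hF (Module.Free.chooseBasis W H)
  refine eq_zero_of_linearIndependent_fun _ (real₃ H) h t ?_
  funext p
  exact ht p.1 p.2.1 p.2.2

end IsPreOrder

namespace IsHopfOrder

variable {act : Γ → M → M} {H : Subalgebra W (M → Ω)}

/-! ### counit, antipode -/

omit [IsPrincipalIdealRing W] [Finite M] in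
/-- A `Γ`-fixed element of `Ω` which is integral over the integrally closed `W` lies in `W`. -/
lemma mem_range_of_fixed_of_isIntegral [IsIntegrallyClosed W] (hF : FixedInFrac W Ω Γ) (ω : Ω)
    (hfix : ∀ σ : Γ, σ • ω = ω) (hint : IsIntegral W ω) : ω ∈ (algebraMap W Ω).range := by
  obtain ⟨s, r, hs, hsr⟩ := hF ω hfix
  let K := FractionRing W
  have hg : Function.Injective (Algebra.ofId W Ω) := FaithfulSMul.algebraMap_injective W Ω
  let f : K →ₐ[W] Ω := IsFractionRing.liftAlgHom hg
  have hfa : ∀ w : W, f (algebraMap W K w) = algebraMap W Ω w := fun w => by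
    rw [IsFractionRing.liftAlgHom_apply, IsFractionRing.lift_algebraMap]
    rfl
  have hω : ω = f (algebraMap W K r / algebraMap W K s) := by
    rw [map_div₀, hfa, hfa, eq_div_iff hs, mul_comm]
    exact hsr
  have hint' : IsIntegral W (algebraMap W K r / algebraMap W K s) := by
    rw [← isIntegral_algHom_iff f f.injective, ← hω]
    exact hint
  obtain ⟨y, hy⟩ := IsIntegrallyClosed.isIntegral_iff.1 hint'
  exact ⟨y, by rw [hω, ← hy, hfa]⟩

variable (hH : IsHopfOrder act H)

include hH in
lemma apply_zero_mem_range (hF : FixedInFrac W Ω Γ) (hact0 : ∀ σ, act σ 0 = 0)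
    (h : M → Ω) (hh : h ∈ H) : h 0 ∈ (algebraMap W Ω).range := by
  haveI := hH.fg
  apply mem_range_of_fixed_of_isIntegral hF
  · intro σ
    rw [← hH.equiv h hh σ 0, hact0]
  · have h1 : IsIntegral W (⟨h, hh⟩ : H) := Algebra.IsIntegral.isIntegral _
    exact h1.map (evS H 0)

include hH in
/-- `H` is stable under pull-back along multiplication by `k`. -/
lemma nsmul_mem (hF : FixedInFrac W Ω Γ) (hact0 : ∀ σ, act σ 0 = 0) (k : ℕ) :
    ∀ h ∈ H, (fun x : M => h (k • x)) ∈ H := by
  induction k with
  | zero =>
    intro h hh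
    obtain ⟨w, hw⟩ := hH.apply_zero_mem_range hF hact0 h hh
    have : (fun x : M => h (0 • x)) = algebraMap W (M → Ω) w := by
      funext x
      rw [zero_smul, Pi.algebraMap_apply, hw]
    rw [this]
    exact H.algebraMap_mem w
  | succ k ih =>
    intro h hh
    obtain ⟨t, ht⟩ := hH.comul h hh
    have key : ∀ t : H ⊗[W] H, (fun x : M => ev₂ (evS H) (k • x) x t) ∈ H := by
      intro t
      induction t using TensorProduct.induction_on with
      | zero =>
        have : (fun x : M => ev₂ (evS H) (k • x) x (0 : H ⊗[W] H)) = 0 := by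
          funext x
          rw [map_zero]
          rfl
        rw [this]
        exact H.zero_mem
      | tmul a b =>
        have : (fun x : M => ev₂ (evS H) (k • x) x (a ⊗ₜ[W] b)) =
            (fun x : M => a.1 (k • x)) * b.1 := by
          funext x
          rw [ev₂_tmul, evS_apply, evS_apply]
          rfl
        rw [this]
        exact H.mul_mem (ih a.1 a.2) b.2
      | add u v hu hv =>
        have : (fun x : M => ev₂ (evS H) (k • x) x (u + v)) =
            (fun x : M => ev₂ (evS H) (k • x) x u) + (fun x : M => ev₂ (evS H) (k • x) x v) := by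
          funext x
          rw [map_add]
          rfl
        rw [this]
        exact H.add_mem hu hv
    have : (fun x : M => h ((k + 1) • x)) = (fun x : M => ev₂ (evS H) (k • x) x t) := by
      funext x
      rw [ht, succ_nsmul]
    rw [this]
    exact key t

include hH in
lemma neg_mem' (hF : FixedInFrac W Ω Γ) (hact0 : ∀ σ, act σ 0 = 0) (h : M → Ω) (hh : h ∈ H) :
    (fun x : M => h (-x)) ∈ H := by
  have h1 := hH.nsmul_mem hF hact0 (Nat.card M - 1) h hh
  have h2 : (fun x : M => h ((Nat.card M - 1) • x)) = (fun x : M => h (-x)) := by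
    funext x
    congr 1
    have hpos : 0 < Nat.card M := Nat.card_pos
    have h3 : (Nat.card M - 1) • x + x = 0 := by
      rw [← succ_nsmul, Nat.sub_add_cancel hpos]
      exact card_nsmul_eq_zero'
    exact eq_neg_of_add_eq_zero_left h3
  rw [← h2]
  exact h1

include hH in
/-- The Hopf algebra data of a Hopf order. -/
lemma funHopfData (hF : FixedInFrac W Ω Γ) (hact0 : ∀ σ, act σ 0 = 0) :
    FunHopfData (evS H) where
  algInj := FaithfulSMul.algebraMap_injective W Ω
  inj1 := fun h hh => Subtype.ext (funext hh)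
  inj2 := hH.toIsPreOrder.inj2 hF
  inj3 := hH.toIsPreOrder.inj3 hF
  comul_mem := fun h => hH.comul h.1 h.2
  counit_mem := fun h => by
    obtain ⟨w, hw⟩ := hH.apply_zero_mem_range hF hact0 h.1 h.2
    exact ⟨w, hw.symm⟩
  antipode_mem := fun h => ⟨⟨fun x => h.1 (-x), hH.neg_mem' hF hact0 h.1 h.2⟩, fun _ => rfl⟩

include hH in
lemma finrank_le (hF : FixedInFrac W Ω Γ) : Module.finrank W H ≤ Nat.card M := by
  haveI := hH.toIsPreOrder.free
  haveI := hH.fg
  classical
  haveI := Fintype.ofFinite M
  have h := hH.toIsPreOrder.linearIndependent_basis hF (Module.Free.chooseBasis W H)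
  have h1 := h.fintype_card_le_finrank
  rw [Module.finrank_fintype_fun_eq_card] at h1
  rw [Module.finrank_eq_card_chooseBasisIndex, Nat.card_eq_fintype_card]
  exact h1

include hH in
/-- **A Hopf order gives a finite flat model.** -/
theorem hasFlatModel (hF : FixedInFrac W Ω Γ) (hact0 : ∀ σ, act σ 0 = 0) :
    HasFlatModel W Ω Γ M act := by
  haveI := hH.toIsPreOrder.free
  haveI := hH.fg
  have D := hH.funHopfData hF hact0
  letI := D.hopfAlgebra
  let evB : M → WithConv (H →ₐ[W] Ω) := fun x => toConv (evS H x)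
  have hinj : Function.Injective evB := fun x y hxy =>
    hH.toIsPreOrder.evS_injective (congrArg WithConv.ofConv hxy)
  have hcard : Nat.card (WithConv (H →ₐ[W] Ω)) ≤ Nat.card M :=
    le_trans card_pts_le_finrank (hH.finrank_le hF)
  have hbij : Function.Bijective evB := hinj.bijective_of_nat_card_le hcard
  let e0 : M ≃ WithConv (H →ₐ[W] Ω) := Equiv.ofBijective evB hbij
  refine ⟨H, inferInstance, D.hopfAlgebra, inferInstance, inferInstance, D.isCocomm, e0.symm,
    ?_, ?_⟩
  · intro f g
    rw [Equiv.symm_apply_eq]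
    change f * g = evB (e0.symm f + e0.symm g)
    have h1 : evB (e0.symm f + e0.symm g) = evB (e0.symm f) * evB (e0.symm g) :=
      D.toConv_ev_add _ _
    rw [h1]
    change f * g = e0 (e0.symm f) * e0 (e0.symm g)
    rw [Equiv.apply_symm_apply, Equiv.apply_symm_apply]
  · intro σ f
    rw [Equiv.symm_apply_eq]
    change σ • f = evB (act σ (e0.symm f))
    have h1 : f = evB (e0.symm f) := (Equiv.apply_symm_apply e0 f).symm
    conv_lhs => rw [h1]
    apply pts_ext
    intro h
    change σ • h.1 (e0.symm f) = h.1 (act σ (e0.symm f))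
    exact (hH.equiv h.1 h.2 σ _).symm

end IsHopfOrder

end

end Fermat.Agent.FF.HOPF.Order6
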