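import Mathlib
import Fermat.Agent.FF.HOPF.Order6
import Fermat.Agent.FF.BASE.ApproxGen2

/-
Programme FF (S19), chapter HOPF, file Approx6 (helper6): **from an approximate Hopf generating
set to a Hopf order**.

Setting: `W` a PID, `Ω` a field, `[Algebra W Ω] [FaithfulSMul W Ω]`, `Γ` a group acting on `Ω`,
`hF : FixedInFrac W Ω Γ`, `O : Subring Ω` with `W → O` (`hWO`) and `O^Γ ⊆ W` (`hOfix`), `M` a finite
additive commutative group with an action `act` of `Γ` (`ActHyp act`: `one`, `mul`, `add`).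

* `isIntegral_of_equivariant` : a `Γ`-equivariant `O`-valued function `f : M → Ω` is integral over
  `W` (root of `∏ x, (X - f x)`, whose coefficients lie in `O^Γ ⊆ W`).
* `fg_adjoin` : for a finite set `S` of such functions, `Algebra.adjoin W S` is a finite `W`-module.
* `isPreOrder_adjoin` : `ApproxGen W O act S → IsPreOrder act (Algebra.adjoin W S)`.
* `exists_lattice_bound` (general, on a finite `Γ`-set `X`): for an `Ω`-basis `n : ι → X → Ω`
  of equivariant `O`-valued functions there is `w₀ ≠ 0` in `W` with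
  `w₀ • g ∈ span_W (n i)` for all equivariant `O`-valued `g`.
* **`isHopfOrder_adjoin`** : `ApproxGen W O act S → IsHopfOrder act (Algebra.adjoin W S)`;
  **`hasFlatModel_of_approxGen`** : `… → HasFlatModel W Ω Γ M act`.
-/

set_option autoImplicit false
set_option linter.style.haveILetI false
set_option linter.unusedSectionVars false

namespace Fermat.Agent.FF.HOPF.Approx6

open TensorProduct WithConv Polynomial
open Fermat.Agent.TW.FLAT.Points6 Fermat.Agent.TW.FLAT.Descent6 Fermat.Agent.TW.FLAT.Closure6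
open Fermat.Agent.FF.HOPF.FunHopf6 Fermat.Agent.FF.HOPF.Order6 Fermat.Agent.FF.BASE.ApproxGen2

noncomputable section

variable {W : Type} [CommRing W] [IsDomain W]
  {Ω : Type} [Field Ω] [Algebra W Ω] [FaithfulSMul W Ω]
  {Γ : Type} [Group Γ] [MulSemiringAction Γ Ω] [SMulCommClass Γ W Ω]

/-- An action of `Γ` on a type `X` (as a function), with the group action axioms. -/
structure IsAct {X : Type} (a : Γ → X → X) : Prop where
  one : ∀ x, a 1 x = x
  mul : ∀ σ τ x, a (σ * τ) x = a σ (a τ x)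

/-- The permutation of `X` given by `σ`. -/
def IsAct.equiv {X : Type} {a : Γ → X → X} (ha : IsAct a) (σ : Γ) : X ≃ X where
  toFun := a σ
  invFun := a σ⁻¹
  left_inv x := by rw [← ha.mul, inv_mul_cancel, ha.one]
  right_inv x := by rw [← ha.mul, mul_inv_cancel, ha.one]

@[simp] lemma IsAct.equiv_apply {X : Type} {a : Γ → X → X} (ha : IsAct a) (σ : Γ) (x : X) :
    ha.equiv σ x = a σ x := rfl

/-- The product action. -/
lemma IsAct.prod {X : Type} {a : Γ → X → X} (ha : IsAct a) :
    IsAct (fun (σ : Γ) (p : X × X) => (a σ p.1, a σ p.2)) where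
  one p := by simp [ha.one]
  mul σ τ p := by simp [ha.mul]

/-! ### Integrality of equivariant integral functions -/

section Integral

variable {Y : Type} [Finite Y] {a : Γ → Y → Y}

/-- A `Γ`-equivariant `O`-valued function on a finite `Γ`-set is integral over `W ⊇ O^Γ`. -/
theorem isIntegral_of_equivariant (ha : IsAct a) (O : Subring Ω)
    (hOfix : ∀ x ∈ O, (∀ σ : Γ, σ • x = x) → x ∈ (algebraMap W Ω).range)
    (f : Y → Ω) (hfO : ∀ x, f x ∈ O) (hfeq : ∀ σ x, f (a σ x) = σ • f x) :
    IsIntegral W f := by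
  classical
  haveI := Fintype.ofFinite Y
  let p : Polynomial Ω := ∏ x : Y, (Polynomial.X - Polynomial.C (f x))
  have hmonic : p.Monic := Polynomial.monic_prod_of_monic _ _ fun x _ => Polynomial.monic_X_sub_C _
  -- coefficients in `O`
  have hcoeffO : ∀ k, p.coeff k ∈ O := by
    let pO : Polynomial O := ∏ x : Y, (Polynomial.X - Polynomial.C (⟨f x, hfO x⟩ : O))
    have hp : p = pO.map O.subtype := by
      rw [Polynomial.map_prod]
      apply Finset.prod_congr rfl
      intro x _
      rw [Polynomial.map_sub, Polynomial.map_X, Polynomial.map_C]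
      rfl
    intro k
    rw [hp, Polynomial.coeff_map]
    exact (pO.coeff k).2
  -- coefficients fixed by `Γ`
  have hcoeffΓ : ∀ (σ : Γ) k, σ • p.coeff k = p.coeff k := by
    intro σ k
    have h1 : p.map (MulSemiringAction.toRingHom Γ Ω σ) = p := by
      rw [Polynomial.map_prod]
      have h2 : ∀ x : Y, (Polynomial.X - Polynomial.C (f x)).map
          (MulSemiringAction.toRingHom Γ Ω σ) = Polynomial.X - Polynomial.C (f (ha.equiv σ x)) := by
        intro x
        rw [Polynomial.map_sub, Polynomial.map_X, Polynomial.map_C, IsAct.equiv_apply, hfeq]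
        rfl
      rw [Finset.prod_congr rfl fun x _ => h2 x]
      exact Equiv.prod_comp (ha.equiv σ) (fun x => Polynomial.X - Polynomial.C (f x))
    have h3 := congrArg (fun q => q.coeff k) h1
    simp only [Polynomial.coeff_map] at h3
    exact h3
  have hlifts : p ∈ Polynomial.lifts (algebraMap W Ω) := by
    rw [Polynomial.lifts_iff_coeff_lifts]
    intro k
    exact hOfix _ (hcoeffO k) (fun σ => hcoeffΓ σ k)
  obtain ⟨q, hq, -, hqm⟩ := Polynomial.lifts_and_degree_eq_and_monic hlifts hmonic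
  refine ⟨q, hqm, ?_⟩
  funext y
  have h4 := Polynomial.hom_eval₂ q (algebraMap W (Y → Ω)) (Pi.evalRingHom (fun _ : Y => Ω) y) f
  have h5 : (Pi.evalRingHom (fun _ : Y => Ω) y).comp (algebraMap W (Y → Ω)) = algebraMap W Ω := by
    ext w
    rfl
  rw [h5] at h4
  change Pi.evalRingHom (fun _ : Y => Ω) y (Polynomial.eval₂ (algebraMap W (Y → Ω)) f q) = 0
  rw [h4, ← Polynomial.eval_map, hq]
  change Polynomial.eval (f y) p = 0
  rw [Polynomial.eval_prod]
  apply Finset.prod_eq_zero (Finset.mem_univ y)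
  simp

end Integral

/-! ### The lattice bound -/

section Lattice

variable {Y : Type} [Fintype Y] {a : Γ → Y → Y} {ι : Type} [Fintype ι] [DecidableEq ι]

/-- **Lattice bound.**  Let `n : ι → Y → Ω` be a basis of the functions on the finite `Γ`-set `Y`
consisting of equivariant `O`-valued functions.  Then there is `w₀ ≠ 0` in `W` such that `w₀ • g` is
a `W`-combination of the `n i` for every equivariant `O`-valued `g`. -/
theorem exists_lattice_bound (ha : IsAct a) (O : Subring Ω)
    (hOfix : ∀ x ∈ O, (∀ σ : Γ, σ • x = x) → x ∈ (algebraMap W Ω).range)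
    (e : ι ≃ Y) (n : ι → Y → Ω) (hn : LinearIndependent Ω n)
    (hnO : ∀ i x, n i x ∈ O) (hneq : ∀ i σ x, n i (a σ x) = σ • n i x) :
    ∃ w₀ : W, w₀ ≠ 0 ∧ ∀ g : Y → Ω, (∀ x, g x ∈ O) → (∀ σ x, g (a σ x) = σ • g x) →
      ∃ c : ι → W, algebraMap W Ω w₀ • g = ∑ i, algebraMap W Ω (c i) • n i := by
  classical
  let V : Matrix ι ι Ω := Matrix.of fun i j => n i (e j)
  let VO : Matrix ι ι O := Matrix.of fun i j => (⟨n i (e j), hnO i (e j)⟩ : O)
  have hVO : V = O.subtype.mapMatrix VO := by
    ext i j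
    rfl
  -- `V` is invertible
  have hVunit : IsUnit V := by
    rw [← Matrix.linearIndependent_rows_iff_isUnit]
    have h1 := hn.map' (LinearEquiv.funCongrLeft Ω Ω e).toLinearMap
      (LinearMap.ker_eq_bot.2 (LinearEquiv.funCongrLeft Ω Ω e).injective)
    exact h1
  have hdet : V.det ≠ 0 := ((Matrix.isUnit_iff_isUnit_det V).1 hVunit).ne_zero
  have hdetO : V.det ∈ O := by
    rw [hVO, ← RingHom.map_det]
    exact (VO.det).2
  have hadjO : ∀ i j, (Matrix.adjugate V) i j ∈ O := by
    intro i j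
    rw [hVO, ← RingHom.map_adjugate]
    exact ((Matrix.adjugate VO) i j).2
  -- the square of the determinant is `Γ`-fixed
  have hdetΓ : ∀ σ : Γ, ∃ u : Ω, u ^ 2 = 1 ∧ σ • V.det = u * V.det := by
    intro σ
    let π : Equiv.Perm ι := e.trans ((ha.equiv σ).trans e.symm)
    have h1 : (MulSemiringAction.toRingHom Γ Ω σ).mapMatrix V = V.submatrix id π := by
      ext i j
      change σ • n i (e j) = n i (e (e.symm (a σ (e j))))
      rw [Equiv.apply_symm_apply, hneq]
    have h2 : σ • V.det = (V.submatrix id π).det := by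
      rw [← h1, ← RingHom.map_det]
      rfl
    rw [Matrix.det_permute'] at h2
    refine ⟨((Equiv.Perm.sign π : ℤˣ) : ℤ), ?_, h2⟩
    have h3 : ((Equiv.Perm.sign π : ℤˣ) : ℤ) ^ 2 = 1 := by
      rcases Int.units_eq_one_or (Equiv.Perm.sign π) with h | h <;> simp [h]
    have h4 := congrArg (fun z : ℤ => (z : Ω)) h3
    simpa using h4
  let D : Ω := V.det ^ 2
  have hD0 : D ≠ 0 := pow_ne_zero 2 hdet
  have hDO : D ∈ O := O.pow_mem hdetO 2
  have hDΓ : ∀ σ : Γ, σ • D = D := by
    intro σ
    obtain ⟨u, hu, hσ⟩ := hdetΓ σ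
    change σ • (V.det ^ 2) = V.det ^ 2
    rw [smul_pow', hσ, mul_pow, hu, one_mul]
  obtain ⟨w₀, hw₀⟩ := hOfix D hDO hDΓ
  have hw₀' : algebraMap W Ω w₀ = D := hw₀
  refine ⟨w₀, fun h => hD0 (by rw [← hw₀', h, map_zero]), ?_⟩
  intro g hgO hgeq
  -- the coefficients
  let d : ι → Ω := fun i => V.det * ∑ j, g (e j) * (Matrix.adjugate V) j i
  have hdO : ∀ i, d i ∈ O := fun i =>
    O.mul_mem hdetO (O.sum_mem fun j _ => O.mul_mem (hgO _) (hadjO j i))
  have hC1 : ∀ j, ∑ i, d i * V i j = D * g (e j) := by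
    intro j
    have h1 : Matrix.vecMul d V = V.det • Matrix.vecMul (fun k => g (e k)) (Matrix.adjugate V * V) := by
      rw [← Matrix.vecMul_vecMul, ← Matrix.smul_vecMul]
      congr 1
    rw [Matrix.adjugate_mul, Matrix.vecMul_smul, Matrix.vecMul_one] at h1
    have h2 := congrFun h1 j
    simp only [Matrix.vecMul, dotProduct, Pi.smul_apply, smul_eq_mul] at h2
    rw [h2]
    change V.det * (V.det * g (e j)) = V.det ^ 2 * g (e j)
    ring
  have hC2 : ∀ x, ∑ i, d i * n i x = D * g x := by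
    intro x
    have := hC1 (e.symm x)
    simp only [V, Matrix.of_apply, Equiv.apply_symm_apply] at this
    exact this
  -- the coefficients are fixed
  have hdΓ : ∀ (σ : Γ) i, σ • d i = d i := by
    intro σ
    have h1 : ∑ i, (σ • d i - d i) • n i = 0 := by
      funext y
      obtain ⟨x, rfl⟩ : ∃ x, a σ x = y := ⟨a σ⁻¹ y, (ha.equiv σ).apply_symm_apply y⟩
      simp only [Finset.sum_apply, Pi.smul_apply, smul_eq_mul, Pi.zero_apply, sub_mul,
        Finset.sum_sub_distrib]
      rw [hC2 (a σ x), sub_eq_zero]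
      have h2 : ∑ i, σ • d i * n i (a σ x) = σ • ∑ i, d i * n i x := by
        rw [Finset.smul_sum]
        apply Finset.sum_congr rfl
        intro i _
        rw [hneq]
        exact (smul_mul' σ (d i) (n i x)).symm
      rw [h2, hC2 x, smul_mul', hDΓ σ, hgeq]
    rw [Fintype.linearIndependent_iff] at hn
    intro i
    have := hn _ h1 i
    exact sub_eq_zero.1 this
  have hdW : ∀ i, ∃ c : W, algebraMap W Ω c = d i := fun i =>
    hOfix (d i) (hdO i) (fun σ => hdΓ σ i)
  choose c hc using hdW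
  refine ⟨c, ?_⟩
  funext x
  simp only [Pi.smul_apply, smul_eq_mul, Finset.sum_apply]
  rw [hw₀', ← hC2 x]
  apply Finset.sum_congr rfl
  intro i _
  rw [hc]

end Lattice

variable {M : Type} [AddCommGroup M] [Finite M]

/-- `W[S]` is a finite `W`-module. -/
theorem fg_adjoin {act : Γ → M → M} (hact : IsAct act) (O : Subring Ω)
    (hOfix : ∀ x ∈ O, (∀ σ : Γ, σ • x = x) → x ∈ (algebraMap W Ω).range)
    {S : Set (M → Ω)} (h : ApproxGen W O act S) :
    (Subalgebra.toSubmodule (Algebra.adjoin W S)).FG :=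
  fg_adjoin_of_finite h.fin fun s hs =>
    isIntegral_of_equivariant hact O hOfix s (h.int s hs) (h.eqv s hs)

/-- `W[S]` is an order of equivariant functions separating the points. -/
theorem isPreOrder_adjoin {act : Γ → M → M} (hact : IsAct act) (O : Subring Ω)
    (hOfix : ∀ x ∈ O, (∀ σ : Γ, σ • x = x) → x ∈ (algebraMap W Ω).range)
    {S : Set (M → Ω)} (h : ApproxGen W O act S) :
    IsPreOrder act (Algebra.adjoin W S) where
  fg := Module.Finite.iff_fg.2 (fg_adjoin hact O hOfix h)
  equiv := fun f hf σ x => eqv_adjoin h.eqv hf σ x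
  sep := fun x y hxy => h.sep x y fun s hs => hxy s (Algebra.subset_adjoin hs)

/-! ### Bounds for a pre-order -/

section Bounds

variable [IsPrincipalIdealRing W] {act : Γ → M → M} {H : Subalgebra W (M → Ω)}

/-- The rank of a pre-order is the number of points. -/
lemma card_basis_eq (hH : IsPreOrder act H) (hF : FixedInFrac W Ω Γ) {ι : Type} [Fintype ι]
    (b : Module.Basis ι W H) : Fintype.card ι = Nat.card M := by
  classical
  haveI := Fintype.ofFinite M
  have hinj := hH.evFam_injective hF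
  have hsurj : Function.Surjective (evFam (evS H)) := evFam_surjective hH.evS_injective
  let E : (Ω ⊗[W] H) ≃ₗ[Ω] (M → Ω) :=
    LinearEquiv.ofBijective (evFam (evS H)).toLinearMap ⟨hinj, hsurj⟩
  have h1 := E.finrank_eq
  rw [Module.finrank_eq_card_basis (Algebra.TensorProduct.basis Ω b),
    Module.finrank_fintype_fun_eq_card] at h1
  rw [h1, Nat.card_eq_fintype_card]

/-- **Lattice bound on `M`**: small equivariant integral functions lie in the pre-order. -/
theorem exists_bound (hH : IsPreOrder act H) (hact : IsAct act) (hF : FixedInFrac W Ω Γ)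
    (O : Subring Ω) (hOfix : ∀ x ∈ O, (∀ σ : Γ, σ • x = x) → x ∈ (algebraMap W Ω).range)
    (hHO : ∀ h ∈ H, ∀ x, h x ∈ O) :
    ∃ w₀ : W, w₀ ≠ 0 ∧ ∀ g : M → Ω, (∀ x, g x ∈ O) → (∀ σ x, g (act σ x) = σ • g x) →
      algebraMap W Ω w₀ • g ∈ H := by
  classical
  haveI := Fintype.ofFinite M
  haveI := hH.free
  haveI := hH.fg
  let b := Module.Free.chooseBasis W H
  have hcard : Fintype.card (Module.Free.ChooseBasisIndex W H) = Fintype.card M := by
    rw [card_basis_eq hH hF b, Nat.card_eq_fintype_card]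
  let e : Module.Free.ChooseBasisIndex W H ≃ M := Fintype.equivOfCardEq hcard
  obtain ⟨w₀, hw₀, hb⟩ := exists_lattice_bound hact O hOfix e
    (fun i => ((b i : H) : M → Ω)) (hH.linearIndependent_basis hF b)
    (fun i x => hHO _ (b i).2 x) (fun i σ x => hH.equiv _ (b i).2 σ x)
  refine ⟨w₀, hw₀, fun g hgO hgeq => ?_⟩
  obtain ⟨c, hc⟩ := hb g hgO hgeq
  rw [hc]
  apply Subalgebra.sum_mem
  intro i _
  rw [algebraMap_smul]
  exact Subalgebra.smul_mem _ (b i).2 _

/-- **Lattice bound on `M × M`**. -/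
theorem exists_bound₂ (hH : IsPreOrder act H) (hact : IsAct act) (hF : FixedInFrac W Ω Γ)
    (O : Subring Ω) (hOfix : ∀ x ∈ O, (∀ σ : Γ, σ • x = x) → x ∈ (algebraMap W Ω).range)
    (hHO : ∀ h ∈ H, ∀ x, h x ∈ O) :
    ∃ w₀ : W, w₀ ≠ 0 ∧ ∀ g : M × M → Ω, (∀ p, g p ∈ O) →
      (∀ σ p, g (act σ p.1, act σ p.2) = σ • g p) →
      ∃ t : H ⊗[W] H, IsPreOrder.real₂ H t = algebraMap W Ω w₀ • g := by
  classical
  haveI := Fintype.ofFinite M
  haveI := hH.free
  haveI := hH.fg
  let b := Module.Free.chooseBasis W H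
  have hcard : Fintype.card (Module.Free.ChooseBasisIndex W H) = Fintype.card M := by
    rw [card_basis_eq hH hF b, Nat.card_eq_fintype_card]
  let e : Module.Free.ChooseBasisIndex W H ≃ M := Fintype.equivOfCardEq hcard
  have hval : ∀ (p : Module.Free.ChooseBasisIndex W H × Module.Free.ChooseBasisIndex W H)
      (q : M × M), IsPreOrder.real₂ H ((b.tensorProduct b) p) q =
        ((b p.1 : H) : M → Ω) q.1 * ((b p.2 : H) : M → Ω) q.2 := by
    intro p q
    rw [IsPreOrder.real₂_apply, Module.Basis.tensorProduct_apply', ev₂_tmul, evS_apply, evS_apply]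
  obtain ⟨w₀, hw₀, hb⟩ := exists_lattice_bound hact.prod O hOfix (Equiv.prodCongr e e)
    (fun p => IsPreOrder.real₂ H ((b.tensorProduct b) p)) (hH.linearIndependent_real₂ hF b)
    (fun p q => by
      rw [hval]
      exact O.mul_mem (hHO _ (b p.1).2 _) (hHO _ (b p.2).2 _))
    (fun p σ q => by
      rw [hval, hval, hH.equiv _ (b p.1).2, hH.equiv _ (b p.2).2, smul_mul'])
  refine ⟨w₀, hw₀, fun g hgO hgeq => ?_⟩
  obtain ⟨c, hc⟩ := hb g hgO hgeq
  refine ⟨∑ p, c p • (b.tensorProduct b) p, ?_⟩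
  rw [hc, map_sum]
  apply Finset.sum_congr rfl
  intro p _
  rw [map_smul]
  funext q
  simp [Algebra.smul_def]

end Bounds

/-! ### From approximate to exact comultiplication -/

section Exact

variable [IsPrincipalIdealRing W] {act : Γ → M → M}

/-- Elements of `tensorSpan` are equivariant for the product action. -/
lemma eqv_tensorSpan {S : Set (M → Ω)}
    (hS : ∀ s ∈ S, ∀ (σ : Γ) (x : M), s (act σ x) = σ • s x) {F : M × M → Ω}
    (hFm : F ∈ tensorSpan W S) (σ : Γ) (p : M × M) :
    F (act σ p.1, act σ p.2) = σ • F p := by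
  unfold tensorSpan at hFm
  induction hFm using Submodule.span_induction with
  | mem F hF =>
    obtain ⟨a, ha, b, hb, rfl⟩ := hF
    rw [tens_apply, tens_apply, eqv_adjoin hS ha, eqv_adjoin hS hb, smul_mul']
  | zero => simp
  | add x y _ _ hx hy => rw [Pi.add_apply, Pi.add_apply, hx, hy, smul_add]
  | smul w x _ hx =>
    rw [Pi.smul_apply, Pi.smul_apply, hx]
    exact (smul_comm σ w (x p)).symm

/-- **An approximate Hopf generating set generates a Hopf order.** -/
theorem isHopfOrder_adjoin (hact : IsAct act)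
    (hactadd : ∀ σ x y, act σ (x + y) = act σ x + act σ y)
    (hF : FixedInFrac W Ω Γ) (O : Subring Ω) (hWO : ∀ w : W, algebraMap W Ω w ∈ O)
    (hOfix : ∀ x ∈ O, (∀ σ : Γ, σ • x = x) → x ∈ (algebraMap W Ω).range)
    {S : Set (M → Ω)} (hA : ApproxGen W O act S) :
    IsHopfOrder act (Algebra.adjoin W S) := by
  have hpre := isPreOrder_adjoin hact O hOfix hA
  refine { toIsPreOrder := hpre, comul := ?_ }
  intro h hh
  have hHO : ∀ f ∈ Algebra.adjoin W S, ∀ x, f x ∈ O := fun f hf x => int_adjoin hWO hA.int hf x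
  obtain ⟨w₀, hw₀, hbound⟩ := exists_bound₂ hpre hact hF O hOfix hHO
  have hw₀Ω : algebraMap W Ω w₀ ≠ 0 := fun h0 =>
    hw₀ ((FaithfulSMul.algebraMap_injective W Ω) (by rw [h0, map_zero]))
  obtain ⟨t, ht, hsmall⟩ := approxComul_adjoin hWO hA.int
    (fun s hs => hA.comul s hs w₀ hw₀) hh
  -- the error divided by `w₀`
  let g : M × M → Ω := fun p => (algebraMap W Ω w₀)⁻¹ * (h (p.1 + p.2) - t p)
  have hgO : ∀ p, g p ∈ O := by
    intro p
    obtain ⟨o, ho, hp0⟩ := hsmall p
    have hp : h (p.1 + p.2) - t p = algebraMap W Ω w₀ * o := hp0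
    have : g p = o := by
      change (algebraMap W Ω w₀)⁻¹ * (h (p.1 + p.2) - t p) = o
      rw [hp, ← mul_assoc, inv_mul_cancel₀ hw₀Ω, one_mul]
    rw [this]
    exact ho
  have hgeq : ∀ (σ : Γ) (p : M × M), g (act σ p.1, act σ p.2) = σ • g p := by
    intro σ p
    change (algebraMap W Ω w₀)⁻¹ * (h (act σ p.1 + act σ p.2) - t (act σ p.1, act σ p.2)) =
      σ • ((algebraMap W Ω w₀)⁻¹ * (h (p.1 + p.2) - t p))
    rw [← hactadd, hpre.equiv h hh, eqv_tensorSpan hA.eqv ht, smul_mul', smul_sub,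
      smul_inv'', smul_algebraMap]
  obtain ⟨t₁, ht₁⟩ := hbound g hgO hgeq
  obtain ⟨n, a, b, ha, hb, rfl⟩ := exists_sum_of_mem_tensorSpan ht
  refine ⟨(∑ i, (⟨a i, ha i⟩ : Algebra.adjoin W S) ⊗ₜ[W] (⟨b i, hb i⟩ : Algebra.adjoin W S))
    + t₁, fun x y => ?_⟩
  have h1 := congrFun ht₁ (x, y)
  rw [IsPreOrder.real₂_apply] at h1
  rw [map_add, h1, map_sum]
  simp only [ev₂_tmul, evS_apply, Pi.smul_apply, smul_eq_mul]
  change _ + algebraMap W Ω w₀ * ((algebraMap W Ω w₀)⁻¹ *
    (h (x + y) - (∑ i, tens (a i) (b i)) (x, y))) = _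
  rw [← mul_assoc, mul_inv_cancel₀ hw₀Ω, one_mul]
  simp only [Finset.sum_apply, tens_apply]
  ring

/-- **An approximate Hopf generating set gives a finite flat model.** -/
theorem hasFlatModel_of_approxGen (hact : IsAct act)
    (hactadd : ∀ σ x y, act σ (x + y) = act σ x + act σ y)
    (hF : FixedInFrac W Ω Γ) (O : Subring Ω) (hWO : ∀ w : W, algebraMap W Ω w ∈ O)
    (hOfix : ∀ x ∈ O, (∀ σ : Γ, σ • x = x) → x ∈ (algebraMap W Ω).range)
    {S : Set (M → Ω)} (hA : ApproxGen W O act S) :
    HasFlatModel W Ω Γ M act := by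
  have h0 : ∀ σ, act σ 0 = 0 := fun σ => by
    have := hactadd σ 0 0
    rw [add_zero] at this
    exact left_eq_add.1 this
  exact (isHopfOrder_adjoin hact hactadd hF O hWO hOfix hA).hasFlatModel hF h0

end Exact

end

end Fermat.Agent.FF.HOPF.Approx6
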