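import Mathlib
import Fermat.Agent.FF.HOPF.Approx6
import Fermat.Agent.FF.BASE.GlobalDescent2

/-
Programme FF (S19), chapter HOPF, file Final6 (helper6): the **global instance** of `Approx6`:
`W = ℤ_(ℓ) = ratLocalizedAt ℓ`, `Ω = ℚ̄`, `Γ = G_ℚ`, `O = placeS ℓ` (the valuation ring of the
place of `ℚ̄` above `ℓ` given by `padicEmbedding ℓ`).

* `fixed_mem_range_global` : an element of `placeS ℓ` fixed by `G_ℚ` lies in `ℤ_(ℓ)`.
* **`hasFlatModel_global`** : an approximate Hopf generating set over `(ℤ_(ℓ), placeS ℓ, G_ℚ)`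
  (the output of `GlobalDescent2.approxGen_global`) gives
  `HasFlatModel (ratLocalizedAt ℓ) ℚ̄ G_ℚ M act`.
-/

set_option autoImplicit false
set_option linter.unusedSectionVars false

namespace Fermat.Agent.FF.HOPF.Final6

open Fermat.Agent.TW.FLAT.Points6 Fermat.Agent.TW.FLAT.Descent6 Fermat.Agent.TW.FLAT.FlatModule6
open Fermat.Agent.FF.HOPF.Approx6 Fermat.Agent.FF.BASE.ApproxGen2
open Fermat.Agent.FF.BASE.GlobalDescent2 GaloisRep

noncomputable section

variable (ℓ : ℕ) [Fact ℓ.Prime]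

/-- An element of the valuation ring `placeS ℓ ⊆ ℚ̄` fixed by `G_ℚ` lies in `ℤ_(ℓ)`. -/
theorem fixed_mem_range_global (x : Qb) (hx : x ∈ placeS ℓ) (hfix : ∀ σ : GQ, σ • x = x) :
    x ∈ (algebraMap (ratLocalizedAt ℓ) Qb).range := by
  have hmem : x ∈ Set.range (algebraMap ℚ Qb) :=
    (InfiniteGalois.mem_range_algebraMap_iff_fixed (k := ℚ) (K := Qb) x).2 hfix
  obtain ⟨q, rfl⟩ := hmem
  rw [mem_placeS_iff, padicEmbedding_algebraMap_rat, PadicAlgCl.norm_extends,
    Padic.norm_rat_le_one_iff_padicValuation_le_one, Rat.padicValuation_le_one_iff] at hx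
  have hcop : q.den.Coprime ℓ :=
    (Nat.Coprime.symm ((Nat.Prime.coprime_iff_not_dvd Fact.out).2 hx))
  exact ⟨⟨q, hcop⟩, rfl⟩

variable {M : Type} [AddCommGroup M] [Finite M] {act : GQ → M → M}

/-- **The global Hopf order theorem**: an approximate Hopf generating set over
`(ℤ_(ℓ), placeS ℓ, G_ℚ)` gives a finite flat model over `ℤ_(ℓ)`. -/
theorem hasFlatModel_global (hact1 : ∀ x, act 1 x = x)
    (hactmul : ∀ σ τ x, act (σ * τ) x = act σ (act τ x))
    (hactadd : ∀ σ x y, act σ (x + y) = act σ x + act σ y)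
    {S : Set (M → Qb)} (hA : ApproxGen (ratLocalizedAt ℓ) (placeS ℓ) act S) :
    HasFlatModel (ratLocalizedAt ℓ) Qb GQ M act :=
  hasFlatModel_of_approxGen ⟨hact1, hactmul⟩ hactadd (fixedInFrac_ratLocalizedAt ℓ) (placeS ℓ)
    (algebraMap_Zl_mem_placeS ℓ) (fixed_mem_range_global ℓ) hA

end

end Fermat.Agent.FF.HOPF.Final6
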