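import Mathlib
import Fermat.Agent.FF.HOPF.Approx6
import Fermat.Agent.FF.BASE.GlobalDescent2
import Fermat.Agent.FF.HOPF.Final6

/-
Programme FF (S19), chapter HOPF, file Local6 (helper6): the **local instance** of `Approx6`:
`W = ℤ_[ℓ]`, `Ω = PadicAlgCl ℓ`, `Γ = Gq ℓ`, `O = ballS ℓ`, `M` a finite `G_ℚ`-set acting through
`rq ℓ`.  It discharges the two hypotheses `hfg`, `hlat` of `GlobalDescent2.approxGen_global`.

* `fixed_mem_range_local` : an element of the unit ball of `PadicAlgCl ℓ` fixed by `Gq ℓ` lies in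
  `ℤ_[ℓ]`.
* `isAct_local` : `fun τ : Gq ℓ => act (rq ℓ τ)` is an action.
* `hfg_local` : `ℤ_ℓ[S₁]` is a finite `ℤ_ℓ`-module;
* `hlat_local` : `∃ N, ∀ g` equivariant with `‖g m‖ ≤ ℓ^{-N}` `∀ m`, `g ∈ ℤ_ℓ[S₁]`;
* **`approxGen_global'`** : `GlobalDescent2.approxGen_global` with `hfg`, `hlat` discharged;
* **`hasFlatModel_of_local`** : an approximate Hopf generating set over `(ℤ_ℓ, ballS ℓ, Gq ℓ)` for
  the `G_ℚ`-module `M` gives `HasFlatModel (ratLocalizedAt ℓ) ℚ̄ G_ℚ M act` (given that the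
  `G_ℚ`-equivariant functions separate `M`).
-/

set_option autoImplicit false
set_option linter.unusedSectionVars false

namespace Fermat.Agent.FF.HOPF.Local6

open Fermat.Agent.TW.FLAT.Points6 Fermat.Agent.TW.FLAT.Descent6 Fermat.Agent.TW.FLAT.FlatModule6
open Fermat.Agent.TW.FLAT.LocalPoints6 Fermat.Agent.TW.LOC.Defs2
open Fermat.Agent.FF.HOPF.Approx6 Fermat.Agent.FF.HOPF.Order6 Fermat.Agent.FF.BASE.ApproxGen2
open Fermat.Agent.FF.BASE.GlobalDescent2 Fermat.Agent.FF.HOPF.Final6 GaloisRep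

noncomputable section

variable (ℓ : ℕ) [Fact ℓ.Prime]

local notation "Ω" => PadicAlgCl ℓ

/-- An element of the unit ball of `ℚ̄_ℓ` fixed by `Gal(ℚ̄_ℓ/ℚ_ℓ)` lies in `ℤ_ℓ`. -/
theorem fixed_mem_range_local (x : Ω) (hx : x ∈ ballS ℓ) (hfix : ∀ τ : Gq ℓ, τ • x = x) :
    x ∈ (algebraMap ℤ_[ℓ] Ω).range := by
  have hmem : x ∈ Set.range (algebraMap ℚ_[ℓ] Ω) :=
    (InfiniteGalois.mem_range_algebraMap_iff_fixed (k := ℚ_[ℓ]) (K := Ω) x).2 hfix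
  obtain ⟨y, rfl⟩ := hmem
  rw [mem_ballS_iff, PadicAlgCl.norm_extends] at hx
  exact ⟨⟨y, hx⟩, by rw [IsScalarTower.algebraMap_apply ℤ_[ℓ] ℚ_[ℓ] Ω]; rfl⟩

variable {M : Type} [AddCommGroup M] [Finite M] {act : GQ → M → M}

/-- The local action through `rq ℓ`. -/
lemma isAct_local (hact1 : ∀ x, act 1 x = x)
    (hactmul : ∀ σ τ x, act (σ * τ) x = act σ (act τ x)) :
    IsAct (fun τ : Gq ℓ => act (rq ℓ τ)) where
  one x := by rw [map_one, hact1]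
  mul σ τ x := by rw [map_mul, hactmul]

/-- `ℤ_ℓ[S₁]` is a finite `ℤ_ℓ`-module. -/
theorem hfg_local (hact1 : ∀ x, act 1 x = x)
    (hactmul : ∀ σ τ x, act (σ * τ) x = act σ (act τ x)) {S₁ : Set (M → Ω)}
    (h : ApproxGen ℤ_[ℓ] (ballS ℓ) (fun τ : Gq ℓ => act (rq ℓ τ)) S₁) :
    (Subalgebra.toSubmodule (Algebra.adjoin ℤ_[ℓ] S₁)).FG :=
  fg_adjoin (isAct_local ℓ hact1 hactmul) (ballS ℓ) (fixed_mem_range_local ℓ) h

/-- Sufficiently small equivariant functions lie in `ℤ_ℓ[S₁]`. -/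
theorem hlat_local (hact1 : ∀ x, act 1 x = x)
    (hactmul : ∀ σ τ x, act (σ * τ) x = act σ (act τ x)) {S₁ : Set (M → Ω)}
    (h : ApproxGen ℤ_[ℓ] (ballS ℓ) (fun τ : Gq ℓ => act (rq ℓ τ)) S₁) :
    ∃ N : ℕ, ∀ g : M → Ω, EqvL ℓ act g → (∀ m, ‖g m‖ ≤ ((ℓ : ℝ)⁻¹) ^ N) →
      g ∈ Algebra.adjoin ℤ_[ℓ] S₁ := by
  have hact' := isAct_local ℓ hact1 hactmul
  have hpre := isPreOrder_adjoin hact' (ballS ℓ) (fixed_mem_range_local ℓ) h
  have hHO : ∀ f ∈ Algebra.adjoin ℤ_[ℓ] S₁, ∀ x, f x ∈ ballS ℓ := fun f hf x =>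
    int_adjoin (algebraMap_padicInt_mem_ballS ℓ) h.int hf x
  obtain ⟨w₀, hw₀, hb⟩ := exists_bound hpre hact' (fixedInFrac_padicInt ℓ) (ballS ℓ)
    (fixed_mem_range_local ℓ) hHO
  have hℓ0 : (0 : ℝ) < ℓ := by exact_mod_cast (Fact.out : ℓ.Prime).pos
  have hnorm : ‖algebraMap ℤ_[ℓ] Ω w₀‖ = ((ℓ : ℝ)⁻¹) ^ w₀.valuation := by
    rw [IsScalarTower.algebraMap_apply ℤ_[ℓ] ℚ_[ℓ] Ω, PadicAlgCl.norm_extends]
    change ‖w₀‖ = _
    rw [PadicInt.norm_eq_zpow_neg_valuation hw₀, zpow_neg, zpow_natCast, inv_pow]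
  have hw₀Ω : algebraMap ℤ_[ℓ] Ω w₀ ≠ 0 := by
    intro h0
    rw [h0, norm_zero] at hnorm
    exact (pow_pos (inv_pos.2 hℓ0) _).ne hnorm
  refine ⟨w₀.valuation, fun g hg hsmall => ?_⟩
  let g' : M → Ω := fun m => (algebraMap ℤ_[ℓ] Ω w₀)⁻¹ * g m
  have hg'O : ∀ m, g' m ∈ ballS ℓ := by
    intro m
    rw [mem_ballS_iff]
    change ‖(algebraMap ℤ_[ℓ] Ω w₀)⁻¹ * g m‖ ≤ 1
    rw [norm_mul, norm_inv, hnorm, inv_mul_le_iff₀ (pow_pos (inv_pos.2 hℓ0) _), mul_one]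
    exact hsmall m
  have hg'eq : ∀ (τ : Gq ℓ) (m : M), g' (act (rq ℓ τ) m) = τ • g' m := by
    intro τ m
    change (algebraMap ℤ_[ℓ] Ω w₀)⁻¹ * g (act (rq ℓ τ) m) =
      τ ((algebraMap ℤ_[ℓ] Ω w₀)⁻¹ * g m)
    rw [hg τ m, map_mul, map_inv₀]
    congr 2
    rw [IsScalarTower.algebraMap_apply ℤ_[ℓ] ℚ_[ℓ] Ω, AlgEquiv.commutes]
  have h1 := hb g' hg'O hg'eq
  have h2 : algebraMap ℤ_[ℓ] Ω w₀ • g' = g := by
    funext m
    change algebraMap ℤ_[ℓ] Ω w₀ * ((algebraMap ℤ_[ℓ] Ω w₀)⁻¹ * g m) = g m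
    rw [← mul_assoc, mul_inv_cancel₀ hw₀Ω, one_mul]
  rw [← h2]
  exact h1

/-- `GlobalDescent2.approxGen_global` with the two lattice hypotheses discharged. -/
theorem approxGen_global' (hact1 : ∀ x, act 1 x = x)
    (hactmul : ∀ σ τ x, act (σ * τ) x = act σ (act τ x))
    (hsep : ∀ x y : M, x ≠ y → ∃ f : M → Qb, EqvQ act f ∧ f x ≠ f y)
    {S₁ : Set (M → Ω)}
    (h : ApproxGen ℤ_[ℓ] (ballS ℓ) (fun τ : Gq ℓ => act (rq ℓ τ)) S₁) :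
    ∃ S₂ : Set (M → Qb), ApproxGen (ratLocalizedAt ℓ) (placeS ℓ) act S₂ :=
  approxGen_global ℓ act hact1 hactmul hsep h (hfg_local ℓ hact1 hactmul h)
    (hlat_local ℓ hact1 hactmul h)

/-- **From a local approximate Hopf generating set to the global finite flat model.** -/
theorem hasFlatModel_of_local (hact1 : ∀ x, act 1 x = x)
    (hactmul : ∀ σ τ x, act (σ * τ) x = act σ (act τ x))
    (hactadd : ∀ σ x y, act σ (x + y) = act σ x + act σ y)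
    (hsep : ∀ x y : M, x ≠ y → ∃ f : M → Qb, EqvQ act f ∧ f x ≠ f y)
    {S₁ : Set (M → Ω)}
    (h : ApproxGen ℤ_[ℓ] (ballS ℓ) (fun τ : Gq ℓ => act (rq ℓ τ)) S₁) :
    HasFlatModel (ratLocalizedAt ℓ) Qb GQ M act := by
  obtain ⟨S₂, hS₂⟩ := approxGen_global' ℓ hact1 hactmul hsep h
  exact hasFlatModel_global ℓ hact1 hactmul hactadd hS₂

end

end Fermat.Agent.FF.HOPF.Local6
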