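import Mathlib
import Fermat.Agent.FF.BASE.GlobalDescent2

/-
Programme FF (S19), chapter HOPF, file Sep6 (helper6): **separation by equivariant functions from
open stabilizers**.

`M` a set with an action `act` of `G_ℚ = Gal(ℚ̄/ℚ)` (`act 1 = id`, `act (σ τ) = act σ ∘ act τ`) such
that every point is fixed by the Galois group of a number field (`hopen`).  Then the
`G_ℚ`-equivariant functions `M → ℚ̄` separate the points of `M`
(`hsep_of_open`, the hypothesis `hsep` of `GlobalDescent2.approxGen_global` and of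
`Local6.hasFlatModel_of_local`).

* `stab act x : Subgroup GQ`, `stab_isClosed`;
* `orbFun act x β : M → ℚ̄`, `σ x ↦ σ β` and `0` off the orbit of `x` (for `β` fixed by `stab act x`);
  `orbFun_self`, `orbFun_act`, `orbFun_of_not_mem`, `eqvQ_orbFun`;
* **`hsep_of_open`**.
-/

set_option autoImplicit false
set_option linter.unusedSectionVars false

namespace Fermat.Agent.FF.HOPF.Sep6

open Fermat.Agent.TW.FLAT.FlatModule6 Fermat.Agent.FF.BASE.GlobalDescent2

noncomputable section

local instance isAlgebraicQbar_sep : Algebra.IsAlgebraic ℚ (AlgebraicClosure ℚ) :=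
  AlgebraicClosure.isAlgebraic ℚ
local instance isAlgClosureQbar_sep : IsAlgClosure ℚ (AlgebraicClosure ℚ) :=
  ⟨inferInstance, inferInstance⟩

variable {M : Type} (act : GQ → M → M)

/-- The stabilizer of a point. -/
def stab (hact1 : ∀ x, act 1 x = x) (hactmul : ∀ σ τ x, act (σ * τ) x = act σ (act τ x))
    (x : M) : Subgroup GQ where
  carrier := {σ | act σ x = x}
  mul_mem' {a b} ha hb := by
    change act (a * b) x = x
    rw [hactmul, (hb : act b x = x), (ha : act a x = x)]
  one_mem' := hact1 x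
  inv_mem' {a} ha := by
    change act a⁻¹ x = x
    have h : act a x = x := ha
    conv_lhs => rw [← h]
    rw [← hactmul, inv_mul_cancel, hact1]

variable {act}
variable (hact1 : ∀ x, act 1 x = x) (hactmul : ∀ σ τ x, act (σ * τ) x = act σ (act τ x))

lemma mem_stab {x : M} {σ : GQ} : σ ∈ stab act hact1 hactmul x ↔ act σ x = x := Iff.rfl

/-- The stabilizer of a point with an open stabilizer is closed. -/
lemma stab_isClosed {x : M} (K : IntermediateField ℚ Qb) [FiniteDimensional ℚ K]
    (hK : ∀ σ ∈ K.fixingSubgroup, act σ x = x) :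
    IsClosed ((stab act hact1 hactmul x : Subgroup GQ) : Set GQ) := by
  apply Subgroup.isClosed_of_isOpen
  exact Subgroup.isOpen_mono (H₁ := K.fixingSubgroup) (fun σ hσ => hK σ hσ)
    K.fixingSubgroup_isOpen

/-- The function `σ x ↦ σ β`, zero off the orbit of `x`. -/
def orbFun (x : M) (β : Qb) : M → Qb := by
  classical
  exact fun z => if h : ∃ τ : GQ, z = act τ x then (Classical.choose h) β else 0

include hact1 hactmul in
lemma orbFun_act {x : M} {β : Qb} (hβ : ∀ σ : GQ, act σ x = x → σ β = β) (τ : GQ) :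
    orbFun (act := act) x β (act τ x) = τ β := by
  classical
  have h : ∃ τ' : GQ, act τ x = act τ' x := ⟨τ, rfl⟩
  unfold orbFun
  rw [dif_pos h]
  have hc := Classical.choose_spec h
  set τ' := Classical.choose h
  -- `τ'⁻¹ τ` stabilizes `x`
  have h1 : act (τ'⁻¹ * τ) x = x := by
    rw [hactmul, hc, ← hactmul, inv_mul_cancel, hact1]
  have h2 := hβ _ h1
  have h3 : τ' ((τ'⁻¹ * τ) β) = τ β := by
    rw [AlgEquiv.mul_apply, ← AlgEquiv.mul_apply, mul_inv_cancel, AlgEquiv.one_apply]
  rw [← h3, h2]

include hact1 hactmul in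
lemma orbFun_self {x : M} {β : Qb} (hβ : ∀ σ : GQ, act σ x = x → σ β = β) :
    orbFun (act := act) x β x = β := by
  have := orbFun_act hact1 hactmul hβ 1
  rw [hact1, AlgEquiv.one_apply] at this
  exact this

lemma orbFun_of_not_mem {x : M} {β : Qb} {z : M} (hz : ¬ ∃ τ : GQ, z = act τ x) :
    orbFun (act := act) x β z = 0 := by
  classical
  unfold orbFun
  rw [dif_neg hz]

include hact1 hactmul in
lemma eqvQ_orbFun {x : M} {β : Qb} (hβ : ∀ σ : GQ, act σ x = x → σ β = β) :
    EqvQ act (orbFun (act := act) x β) := by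
  intro σ z
  by_cases hz : ∃ τ : GQ, z = act τ x
  · obtain ⟨τ, rfl⟩ := hz
    rw [← hactmul, orbFun_act hact1 hactmul hβ, orbFun_act hact1 hactmul hβ, AlgEquiv.mul_apply]
  · have hz' : ¬ ∃ τ : GQ, act σ z = act τ x := by
      rintro ⟨τ, hτ⟩
      apply hz
      refine ⟨σ⁻¹ * τ, ?_⟩
      rw [hactmul, ← hτ, ← hactmul, inv_mul_cancel, hact1]
    rw [orbFun_of_not_mem hz, orbFun_of_not_mem hz', map_zero]

include hact1 hactmul in
/-- **Equivariant functions separate the points of a `G_ℚ`-set with open stabilizers.** -/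
theorem hsep_of_open
    (hopen : ∀ x : M, ∃ K : IntermediateField ℚ Qb, FiniteDimensional ℚ K ∧
      ∀ σ ∈ K.fixingSubgroup, act σ x = x) :
    ∀ x y : M, x ≠ y → ∃ f : M → Qb, EqvQ act f ∧ f x ≠ f y := by
  intro x y hxy
  by_cases hy : ∃ τ : GQ, y = act τ x
  · obtain ⟨τ, rfl⟩ := hy
    obtain ⟨K, hKfin, hK⟩ := hopen x
    haveI := hKfin
    -- `τ` is not in the (closed) stabilizer, so it moves an element of its fixed field
    let H : ClosedSubgroup GQ :=
      ⟨stab act hact1 hactmul x, stab_isClosed hact1 hactmul K hK⟩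
    have hτ : τ ∉ (IntermediateField.fixedField H.toSubgroup).fixingSubgroup := by
      rw [InfiniteGalois.fixingSubgroup_fixedField H]
      intro h
      exact hxy (mem_stab hact1 hactmul |>.1 h).symm
    rw [IntermediateField.mem_fixingSubgroup_iff] at hτ
    push Not at hτ
    obtain ⟨β, hβmem, hβ⟩ := hτ
    have hβfix : ∀ σ : GQ, act σ x = x → σ β = β := by
      intro σ hσ
      exact (IntermediateField.mem_fixedField_iff _ β).1 hβmem σ hσ
    refine ⟨orbFun (act := act) x β, eqvQ_orbFun hact1 hactmul hβfix, ?_⟩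
    rw [orbFun_self hact1 hactmul hβfix, orbFun_act hact1 hactmul hβfix]
    exact fun h => hβ h.symm
  · have h1 : ∀ σ : GQ, act σ x = x → σ (1 : Qb) = 1 := fun σ _ => map_one σ
    refine ⟨orbFun (act := act) x 1, eqvQ_orbFun hact1 hactmul h1, ?_⟩
    rw [orbFun_self hact1 hactmul h1, orbFun_of_not_mem hy]
    exact one_ne_zero

end

end Fermat.Agent.FF.HOPF.Sep6
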