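import Mathlib
import Fermat.Agent.FF.HOPF.Local6
import Fermat.Agent.FF.HOPF.Sep6

/-
Programme FF (S19), chapter HOPF, file Tail6 (helper6): the tail of the chain in one statement.

**`hasFlatModel_of_local_of_open`** : `M` a finite `G_ℚ`-module with open stabilizers; an
approximate Hopf generating set over `(ℤ_ℓ, ballS ℓ, Gq ℓ)` (for the action through `rq ℓ`) gives
`HasFlatModel (ratLocalizedAt ℓ) ℚ̄ G_ℚ M act`.
-/

set_option autoImplicit false
set_option linter.unusedSectionVars false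

namespace Fermat.Agent.FF.HOPF.Tail6

open Fermat.Agent.TW.FLAT.Points6 Fermat.Agent.TW.FLAT.FlatModule6 Fermat.Agent.TW.LOC.Defs2
open Fermat.Agent.FF.BASE.ApproxGen2 Fermat.Agent.FF.BASE.GlobalDescent2 GaloisRep

noncomputable section

variable (ℓ : ℕ) [Fact ℓ.Prime] {M : Type} [AddCommGroup M] [Finite M] {act : GQ → M → M}

/-- **The tail of the S19 chain.** -/
theorem hasFlatModel_of_local_of_open (hact1 : ∀ x, act 1 x = x)
    (hactmul : ∀ σ τ x, act (σ * τ) x = act σ (act τ x))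
    (hactadd : ∀ σ x y, act σ (x + y) = act σ x + act σ y)
    (hopen : ∀ x : M, ∃ K : IntermediateField ℚ Qb, FiniteDimensional ℚ K ∧
      ∀ σ ∈ K.fixingSubgroup, act σ x = x)
    {S₁ : Set (M → PadicAlgCl ℓ)}
    (h : ApproxGen ℤ_[ℓ] (ballS ℓ) (fun τ : Gq ℓ => act (rq ℓ τ)) S₁) :
    HasFlatModel (ratLocalizedAt ℓ) Qb GQ M act :=
  Local6.hasFlatModel_of_local ℓ hact1 hactmul hactadd
    (Sep6.hsep_of_open hact1 hactmul hopen) h

end

end Fermat.Agent.FF.HOPF.Tail6
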