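import Mathlib
import Fermat.Agent.FF.HOPF.Tail6
import Fermat.Agent.FF.LEVEL.Transfer0
import Fermat.Agent.ES.GAL.OpenStab12
import Fermat.Agent.ES.KUM.FiniteTorsion15

/-
Programme FF (S19), chapter HOPF, file Tors6 (helper6): the tail of the chain for the concrete
module `J₀(N)[ℓ^k]` with the Galois action `Transfer0.torsAct`.

* `finite_tors N n hn`   : `J₀(N)[n]` is finite for `n ≠ 0` (`FiniteTorsion15`);
* `hopen_tors N n hn`    : every point of `J₀(N)[n]` has an open stabilizer (`OpenStab12`), in the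
  shape consumed by `Sep6.hsep_of_open` / `Tail6.hasFlatModel_of_local_of_open`;
* **`torsFlat_of_local`** : an approximate Hopf generating set over `(ℤ_ℓ, ballS ℓ, Gq ℓ)` for
  `J₀(N)[ℓ^k]` (action through `rq ℓ`) gives `Transfer0.TorsFlat N ℓ k`.
-/

set_option autoImplicit false
set_option linter.unusedSectionVars false

open AlgebraicCurve ModularCurve

namespace Fermat.Agent.FF.HOPF.Tors6

open Fermat.Agent.TW.FLAT.Points6 Fermat.Agent.TW.FLAT.FlatModule6 Fermat.Agent.TW.LOC.Defs2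
open Fermat.Agent.FF.BASE.ApproxGen2 Fermat.Agent.FF.BASE.GlobalDescent2 GaloisRep
open Fermat.Agent.FF.LEVEL.Transfer0

noncomputable section

variable (N : ℕ) [NeZero N]

/-- `J₀(N)[n]` is finite for a nonzero integer `n`. -/
theorem finite_tors (n : ℤ) (hn : n ≠ 0) : Finite (Submodule.torsionBy ℤ (JZero N) n) := by
  haveI : NeZero n.natAbs := ⟨Int.natAbs_ne_zero.2 hn⟩
  have hfin := Fermat.Agent.ES.KUM.FiniteTorsion15.finite_setOf_nsmul_eq_zero N n.natAbs
  refine Set.Finite.subset hfin ?_ |>.to_subtype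
  intro y hy
  have hy' : n • y = 0 := (Submodule.mem_torsionBy_iff _ _).1 hy
  show n.natAbs • y = 0
  rcases Int.natAbs_eq n with h | h
  · rw [← natCast_zsmul, ← h]; exact hy'
  · have : ((n.natAbs : ℕ) : ℤ) = -n := by omega
    rw [← natCast_zsmul, this, neg_smul, hy', neg_zero]

/-- Open stabilizers on `J₀(N)[n]`, in the shape of `Sep6.hsep_of_open`. -/
theorem hopen_tors (n : ℤ) (x : Submodule.torsionBy ℤ (JZero N) n) :
    ∃ K : IntermediateField ℚ Qb, FiniteDimensional ℚ K ∧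
      ∀ σ ∈ K.fixingSubgroup, torsAct N n σ x = x := by
  obtain ⟨K, hK, H⟩ := Fermat.Agent.ES.GAL.OpenStab12.hasLevel_pic0 N (x : JZero N)
  refine ⟨K, hK, fun σ hσ => Subtype.ext ?_⟩
  rw [coe_torsAct]
  refine H σ fun a ha => ?_
  exact (IntermediateField.mem_fixingSubgroup_iff K σ).1 hσ a ha

lemma torsAct_one (n : ℤ) (x : Submodule.torsionBy ℤ (JZero N) n) : torsAct N n 1 x = x :=
  Subtype.ext (by rw [coe_torsAct, one_smul])

lemma torsAct_mul (n : ℤ) (σ τ : GQ) (x : Submodule.torsionBy ℤ (JZero N) n) :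
    torsAct N n (σ * τ) x = torsAct N n σ (torsAct N n τ x) :=
  Subtype.ext (by simp only [coe_torsAct, mul_smul])

lemma torsAct_add (n : ℤ) (σ : GQ) (x y : Submodule.torsionBy ℤ (JZero N) n) :
    torsAct N n σ (x + y) = torsAct N n σ x + torsAct N n σ y :=
  Subtype.ext (by simp only [coe_torsAct, Submodule.coe_add, smul_add])

/-- **The tail of the S19 chain for `J₀(N)[ℓ^k]`.** -/
theorem torsFlat_of_local (ℓ : ℕ) [Fact ℓ.Prime] (k : ℕ)
    {S₁ : Set (Submodule.torsionBy ℤ (JZero N) ((ℓ : ℤ) ^ k) → PadicAlgCl ℓ)}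
    (h : ApproxGen ℤ_[ℓ] (ballS ℓ)
      (fun τ : Gq ℓ => torsAct N ((ℓ : ℤ) ^ k) (rq ℓ τ)) S₁) :
    TorsFlat N ℓ k := by
  have hne : ((ℓ : ℤ) ^ k) ≠ 0 :=
    pow_ne_zero k (Int.natCast_ne_zero.2 (Fact.out : ℓ.Prime).ne_zero)
  haveI := finite_tors N _ hne
  exact Tail6.hasFlatModel_of_local_of_open ℓ (torsAct_one N _) (torsAct_mul N _)
    (torsAct_add N _) (hopen_tors N _) h

end

end Fermat.Agent.FF.HOPF.Tors6
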